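/-
S55 / layer G / block REC / adapter TOW — leaf ALG-INF (subtask 553), helper696.

`infInj : InfInjSpec` and `infResLift : InfResLiftSpec` (exact types of `Tow/Spec.lean`).

Both are short consequences of material already on main:
* `GAD.H953.map_eq_zero_imp`, `compIso`, `map_eq_compIso_infMap` (helper953: `map π ι n` is the
  comparison isomorphism `Hⁿ(Γ, C) ≅ Hⁿ(Γ' ⧸ ker π, C'^{ker π})` followed by inflation),
* `T.H244.infRes2_of_subgroup` (helper244, `p`-local inflation–restriction; used inside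
  `map_eq_zero_imp`), `T.H954.infRes2` (helper954, inflation–restriction in degree 2).
-/
import Fermat.Agent.S55.G.Rec.Tow.Spec
import Fermat.Agent.S55.GAD.H953.InfInj
import Fermat.Agent.S55.T.InfRes2H954

set_option autoImplicit false

open CategoryTheory groupCohomology

namespace Fermat.Agent.S55.G.Rec.TOW.H696

open Fermat.Agent.S55 Fermat.Agent.S55.T

/-- **ALG-INF** (`InfInjSpec`): if `C = C'^{ker π}` and `H¹(Q, C') = 0` for all `p`-subgroups
`Q ≤ ker π`, inflation `H²(Γ, C) → H²(Γ', C')` is injective on `p`-primary classes. -/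
theorem infInj : InfInjSpec := by
  intro p hp Γ' Γ _ _ _ π hπ C C' ι hι h1 z hz hinf
  have : Fact p.Prime := ⟨hp⟩
  obtain ⟨k, hk⟩ := hz
  obtain ⟨P⟩ : Nonempty (Sylow p π.ker) := inferInstance
  have hPp : IsPGroup p ((P : Subgroup π.ker).map π.ker.subtype) := P.isPGroup'.map _
  have hPle : (P : Subgroup π.ker).map π.ker.subtype ≤ π.ker := by
    rintro _ ⟨x, -, rfl⟩
    exact x.2
  have hP : ∀ z : groupCohomology
      (resSub (resSub C' π.ker) (P : Subgroup π.ker)) 1, z = 0 :=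
    T.H954.eq_zero_of_iso_of_isZero
      (T.H954.resResIso C' π.ker (P : Subgroup π.ker) 1) (h1 _ hPle hPp)
  have hcop : (p ^ k).Coprime (P : Subgroup π.ker).index :=
    Nat.Coprime.pow_left k ((Nat.Prime.coprime_iff_not_dvd hp).2 P.not_dvd_index)
  exact GAD.H953.map_eq_zero_imp π C' C ι hπ hι.1 hι.2 (P : Subgroup π.ker) hP hcop z hk hinf

/-- **ALG-LIFT** (`InfResLiftSpec`): if `C = C'^{ker π}` and `H¹(ker π, C') = 0`, every class of
`H²(Γ', C')` which dies on `ker π` is inflated from `H²(Γ, C)`. -/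
theorem infResLift : InfResLiftSpec := by
  intro Γ' Γ _ _ _ π hπ C C' ι hι h1 Y hY
  obtain ⟨-, -, h3⟩ := T.H954.infRes2 ℤ Γ' C' π.ker h1
  obtain ⟨y, hy⟩ := h3 Y hY
  refine ⟨(GAD.H953.compIso π C' C ι hπ hι.1 hι.2 2).inv.hom y, ?_⟩
  rw [GAD.H953.map_eq_compIso_infMap π C' C ι hπ hι.1 hι.2 2]
  have h : ((GAD.H953.compIso π C' C ι hπ hι.1 hι.2 2).hom.hom
      ((GAD.H953.compIso π C' C ι hπ hι.1 hι.2 2).inv.hom y)) = y := by
    have := congrArg (fun f => f.hom y) (GAD.H953.compIso π C' C ι hπ hι.1 hι.2 2).inv_hom_id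
    exact this
  show (infMap C' π.ker 2).hom ((GAD.H953.compIso π C' C ι hπ hι.1 hι.2 2).hom.hom _) = Y
  rw [h]
  exact hy

end Fermat.Agent.S55.G.Rec.TOW.H696
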